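import Fermat.Agent.Zeta.Fixed

/-!
# Counting effective divisors fixed by a Frobenius automorphism
-/

set_option autoImplicit false

noncomputable section

open AlgebraicCurve Module

namespace Fermat.Agent.Zeta

open Fermat.Agent.FunField Fermat.Agent.FunField.PlaceLemmas Fermat.Agent.TorsInj
  Fermat.Agent.HeckeRed SemilinearAut

section Fib

/-- counting by fibres -/
theorem card_of_fibers {X Y : Type*} [Finite Y] (Φ : X → Y) {n : ℕ} (hn : n ≠ 0)
    (h : ∀ y, Nat.card {x // Φ x = y} = n) : Nat.card X = Nat.card Y * n := by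
  have hfin : ∀ y, Finite {x // Φ x = y} := fun y =>
    Nat.finite_of_card_ne_zero (by rw [h]; exact hn)
  have := Fintype.ofFinite Y
  rw [← Nat.card_congr (Equiv.sigmaFiberEquiv Φ), Nat.card_sigma, Finset.sum_congr rfl fun y _ => h y,
    Finset.sum_const, Finset.card_univ, smul_eq_mul, Nat.card_eq_fintype_card]

end Fib

variable {K F : Type*} [Field K] [Field F] [Algebra K F] [IsAlgClosed K] [IsFF K F]

/-- `l(D) = deg D + 1 - g` for `deg D ≥ 2 g - 1`. -/
theorem finrank_rr_large (D : Divisor K F) (hD : 2 * (genusFF K F : ℤ) ≤ Divisor.degree D + 1) :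
    (finrank K (riemannRochSpace D) : ℤ) = Divisor.degree D + 1 - genusFF K F := by
  obtain ⟨W, hW, -, hRR⟩ := exists_canonical_riemann_roch (K := K) (F := F)
  have h1 := hRR D
  have h2 : Divisor.degree (W - D) < 0 := by
    rw [map_sub, hW]
    omega
  rw [finrank_rr_of_degree_neg h2] at h1
  push_cast at h1
  omega

variable (g : SemilinearAut K F) {Q : ℕ} (hQ : 2 ≤ Q) (hQK : (Q : K) = 0)
  (hg : ∀ a : K, g • algebraMap K F a = algebraMap K F (a ^ Q))

/-- functions with the same divisor differ by a constant -/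
theorem exists_const_of_divOf_eq {f f' : F} (hf : f ≠ 0) (hf' : f' ≠ 0)
    (h : (divOf f : Divisor K F) = divOf f') : ∃ a : K, a ≠ 0 ∧ f = algebraMap K F a * f' := by
  have h0 : f * f'⁻¹ ≠ 0 := mul_ne_zero hf (inv_ne_zero hf')
  obtain ⟨a, ha⟩ := exists_eq_algebraMap_of_forall_ord_nonneg (K := K) (f := f * f'⁻¹) (by
    intro v
    rw [← divOf_apply, divOf_mul hf (inv_ne_zero hf'), divOf_inv, h, add_neg_cancel,
      Finsupp.zero_apply])
  refine ⟨a, ?_, ?_⟩
  · rintro rfl
    rw [map_zero] at ha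
    exact h0 ha.symm
  · rw [ha]
    field_simp

include hQ hg in
/-- a function whose divisor is fixed can be rescaled to be fixed -/
theorem exists_fixed_of_divOf {f : F} (hf : f ≠ 0) (h : g • (divOf f : Divisor K F) = divOf f) :
    ∃ a : K, a ≠ 0 ∧ g • (algebraMap K F a * f) = algebraMap K F a * f := by
  have hgf : g • f ≠ 0 := (smul_ne_zero_iff_ne g).mpr hf
  rw [← divOf_smul] at h
  obtain ⟨c, hc, hc'⟩ := exists_const_of_divOf_eq hgf hf h
  -- `g f = c f`; want `a ^ Q * c = a`
  obtain ⟨b, hb⟩ := IsAlgClosed.exists_pow_nat_eq c (by omega : 0 < Q - 1)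
  have hb0 : b ≠ 0 := by
    rintro rfl
    rw [zero_pow (by omega)] at hb
    exact hc hb.symm
  refine ⟨b⁻¹, inv_ne_zero hb0, ?_⟩
  rw [smul_mul', hg, hc', ← mul_assoc, ← map_mul]
  congr 2
  have h1 : b ^ Q = b ^ (Q - 1) * b := by rw [← pow_succ]; congr 1; omega
  rw [inv_pow, h1, hb]
  field_simp

include hQ hQK hg in
/-- the number of fixed effective divisors linearly equivalent to `E₁`. -/
theorem card_equiv_class (E₁ : Divisor K F) (hE₁ : g • E₁ = E₁) :
    Nat.card {E : Divisor K F // 0 ≤ E ∧ g • E = E ∧ ∃ f : F, f ≠ 0 ∧ E = E₁ + divOf f} * (Q - 1) =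
      Q ^ (finrank K (riemannRochSpace E₁)) - 1 := by
  classical
  set V := riemannRochSpace E₁ with hV
  have hmem : ∀ x ∈ V, g • x ∈ V := by
    intro x hx
    by_cases hx0 : x = 0
    · rw [hx0, smul_zero]
      exact V.zero_mem
    · have hgx : g • x ≠ 0 := (smul_ne_zero_iff_ne g).mpr hx0
      rw [hV, mem_rr_iff_divOf hx0] at hx
      rw [hV, mem_rr_iff_divOf hgx, divOf_smul]
      have h2 : E₁ + g • (divOf x : Divisor K F) = g • (E₁ + divOf x) := by
        rw [smul_add, hE₁]
      rw [h2]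
      intro v
      rw [divisor_smul_apply]
      exact hx _
  let φ : V →+ V :=
    { toFun := fun x => ⟨g • (x : F), hmem x x.2⟩
      map_zero' := Subtype.ext (smul_zero g)
      map_add' := fun x y => Subtype.ext (smul_add g _ _) }
  have hφ : ∀ (a : K) (x : V), φ (a • x) = a ^ Q • φ x := by
    intro a x
    apply Subtype.ext
    show g • (a • (x : F)) = a ^ Q • (g • (x : F))
    rw [Algebra.smul_def, smul_mul', hg, Algebra.smul_def]
  have hinj : Function.Injective φ := by
    rw [injective_iff_map_eq_zero]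
    intro x hx
    have h3 : g • (x : F) = 0 := congrArg Subtype.val hx
    exact Subtype.ext ((smul_eq_zero_iff_eq g).mp h3)
  have hcard := card_fixed hQ hQK φ hφ hinj
  have hfin : Finite {v : V // φ v = v} := Nat.finite_of_card_ne_zero (by
    rw [hcard]
    exact pow_ne_zero _ (by omega))
  -- nonzero fixed functions
  let X := {f : F // f ≠ 0 ∧ f ∈ V ∧ g • f = f}
  have hXcard : Nat.card X = Q ^ (finrank K V) - 1 := by
    have := Fintype.ofFinite {v : V // φ v = v}
    have e : X ≃ {x : {v : V // φ v = v} // x ≠ ⟨0, map_zero φ⟩} :=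
      { toFun := fun x => ⟨⟨⟨x.1, x.2.2.1⟩, Subtype.ext x.2.2.2⟩, fun h =>
          x.2.1 (congrArg (fun y : {v : V // φ v = v} => ((y.1 : V) : F)) h)⟩
        invFun := fun x => ⟨x.1.1, fun h => x.2 (Subtype.ext (Subtype.ext h)), x.1.1.2,
          congrArg Subtype.val x.1.2⟩
        left_inv := fun x => rfl
        right_inv := fun x => rfl }
    rw [Nat.card_congr e, Nat.card_eq_fintype_card, Fintype.card_subtype_compl,
      Fintype.card_subtype_eq, ← Nat.card_eq_fintype_card, hcard]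
  let Y := {E : Divisor K F // 0 ≤ E ∧ g • E = E ∧ ∃ f : F, f ≠ 0 ∧ E = E₁ + divOf f}
  have hXfin : Finite X := by
    have : Function.Injective (fun x : X => (⟨⟨x.1, x.2.2.1⟩, Subtype.ext x.2.2.2⟩ :
        {v : V // φ v = v})) := by
      intro x y h
      exact Subtype.ext (congrArg (fun y : {v : V // φ v = v} => ((y.1 : V) : F)) h)
    exact Finite.of_injective _ this
  let Φ : X → Y := fun x => ⟨E₁ + divOf x.1, (mem_rr_iff_divOf x.2.1).mp x.2.2.1, by
    rw [smul_add, hE₁, ← divOf_smul, x.2.2.2], x.1, x.2.1, rfl⟩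
  have hΦ : Function.Surjective Φ := by
    rintro ⟨E, hE, hgE, f, hf, rfl⟩
    rw [smul_add, hE₁, add_right_inj] at hgE
    obtain ⟨a, ha, hfix⟩ := exists_fixed_of_divOf g hQ hg hf hgE
    have ha' : algebraMap K F a ≠ 0 := by rwa [Ne, map_eq_zero]
    have hdiv : (divOf (algebraMap K F a * f) : Divisor K F) = divOf f := by
      rw [divOf_mul ha' hf, divOf_algebraMap, zero_add]
    refine ⟨⟨algebraMap K F a * f, mul_ne_zero ha' hf, ?_, hfix⟩, ?_⟩
    · rw [hV, mem_rr_iff_divOf (mul_ne_zero ha' hf), hdiv]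
      exact hE
    · apply Subtype.ext
      show E₁ + divOf (algebraMap K F a * f) = E₁ + divOf f
      rw [hdiv]
  have hYfin : Finite Y := Finite.of_surjective Φ hΦ
  have hfib : ∀ y : Y, Nat.card {x // Φ x = y} = Q - 1 := by
    intro y
    obtain ⟨x₀, hx₀⟩ := hΦ y
    rw [← card_pow_eq_ne (K := K) hQ hQK]
    symm
    refine Nat.card_congr (Equiv.ofBijective (fun a : {a : K // a ^ Q = a ∧ a ≠ 0} =>
      (⟨⟨algebraMap K F a.1 * x₀.1, mul_ne_zero (by
          rw [Ne, map_eq_zero]; exact a.2.2) x₀.2.1, by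
          rw [← Algebra.smul_def]; exact V.smul_mem _ x₀.2.2.1, by
          rw [smul_mul', hg, a.2.1, x₀.2.2.2]⟩, by
          rw [← hx₀]
          apply Subtype.ext
          show E₁ + divOf (algebraMap K F a.1 * x₀.1) = E₁ + divOf x₀.1
          rw [divOf_mul (by rw [Ne, map_eq_zero]; exact a.2.2) x₀.2.1, divOf_algebraMap,
            zero_add]⟩ : {x // Φ x = y})) ⟨?_, ?_⟩)
    · intro a b hab
      have h1 : algebraMap K F a.1 * x₀.1 = algebraMap K F b.1 * x₀.1 :=
        congrArg (fun z : {x // Φ x = y} => ((z.1 : X) : F)) hab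
      exact Subtype.ext ((algebraMap K F).injective (mul_right_cancel₀ x₀.2.1 h1))
    · rintro ⟨x, hx⟩
      have h1 : E₁ + divOf x.1 = E₁ + divOf x₀.1 := congrArg Subtype.val (hx.trans hx₀.symm)
      rw [add_right_inj] at h1
      obtain ⟨a, ha, hax⟩ := exists_const_of_divOf_eq x.2.1 x₀.2.1 h1
      refine ⟨⟨a, ?_, ha⟩, Subtype.ext (Subtype.ext hax.symm)⟩
      have h2 := x.2.2.2
      rw [hax, smul_mul', hg, x₀.2.2.2] at h2
      exact (algebraMap K F).injective (mul_right_cancel₀ x₀.2.1 h2)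
  have h1 := card_of_fibers Φ (by omega) hfib
  rw [hXcard] at h1
  exact h1.symm

/-- number of fixed effective divisors of degree `d` -/
def effCard (d : ℕ) : ℕ :=
  Nat.card {E : Divisor K F // 0 ≤ E ∧ Divisor.degree E = (d : ℤ) ∧ g • E = E}

/-- number of fixed divisor classes -/
def clsCard : ℕ := Nat.card {c : Pic0 K F // g • c = c}

/-- number of fixed places -/
def placeCard : ℕ := Nat.card {P : Place K F // g • P = P}

omit [IsAlgClosed K] [IsFF K F] in
theorem smul_single (P : Place K F) (n : ℤ) :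
    g • (Finsupp.single P n : Divisor K F) = Finsupp.single (g • P) n := by
  classical
  ext v
  rw [divisor_smul_apply, Finsupp.single_apply, Finsupp.single_apply]
  congr 1
  rw [eq_inv_smul_iff]

theorem eq_iff_mk {D D' : Divisor.degZero (K := K) (F := F)} :
    Pic0.mk D = Pic0.mk D' ↔
      ∃ f : F, f ≠ 0 ∧ (D : Divisor K F) = (D' : Divisor K F) + divOf f := by
  rw [← sub_eq_zero, ← PIC.mk_sub, mk_eq_zero_iff', AddSubgroup.coe_sub]
  constructor
  · rintro ⟨f, hf, h⟩
    refine ⟨f, hf, ?_⟩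
    have : (D : Divisor K F) - (D' : Divisor K F) = divOf f := by
      ext v
      rw [h, divOf_apply]
    rw [← this]
    abel
  · rintro ⟨f, hf, h⟩
    refine ⟨f, hf, fun v => ?_⟩
    rw [h, add_sub_cancel_left, divOf_apply]

include hQ hQK hg in
/-- **(Z3)** -/
theorem effCard_mul {t : F} (ht : Transcendental K t) (hgt : g • t = t) {P₀ : Place K F}
    (hP₀ : g • P₀ = P₀) (d : ℕ) (hd : 2 * genusFF K F ≤ d + 1) :
    effCard g d * (Q - 1) = clsCard g * (Q ^ (d + 1 - genusFF K F) - 1) := by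
  classical
  set D₀ : Divisor K F := Finsupp.single P₀ (d : ℤ) with hD₀
  have hgD₀ : g • D₀ = D₀ := by rw [hD₀, smul_single, hP₀]
  have hdegD₀ : Divisor.degree D₀ = d := by
    rw [hD₀, Divisor.degree_single, Fermat.Agent.Deuring.deg_eq_one P₀]
    simp
  have hfinC : Finite {c : Pic0 K F // g • c = c} :=
    (PIC.finite_fixed_classes g hQ hg ht hgt).to_subtype
  let X := {E : Divisor K F // 0 ≤ E ∧ Divisor.degree E = (d : ℤ) ∧ g • E = E}
  have hz : ∀ E : X, E.1 - D₀ ∈ Divisor.degZero (K := K) (F := F) := fun E => by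
    rw [Divisor.mem_degZero, map_sub, E.2.2.1, hdegD₀, sub_self]
  let Φ : X → {c : Pic0 K F // g • c = c} := fun E => ⟨Pic0.mk ⟨E.1 - D₀, hz E⟩, by
    rw [pic0_smul_mk]
    congr 1
    apply Subtype.ext
    rw [coe_degZeroSMulHom]
    show g • (E.1 - D₀) = E.1 - D₀
    rw [smul_sub, E.2.2.2, hgD₀]⟩
  set l : ℕ := d + 1 - genusFF K F with hl
  have hlpos : 0 < l := by omega
  have hQl : Q ≤ Q ^ l := Nat.le_self_pow hlpos.ne' Q
  have hfib : ∀ c, Nat.card {x // Φ x = c} * (Q - 1) = Q ^ l - 1 := by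
    rintro ⟨c, hc⟩
    obtain ⟨D, rfl⟩ := Pic0.mk_surjective c
    obtain ⟨E₁, hE₁0, hE₁d, hE₁g, hE₁⟩ := PIC.exists_stable g hQ hg D₀ hgD₀ (by
      rw [hdegD₀]
      exact_mod_cast (by omega : genusFF K F ≤ d)) D hc
    have hrk : finrank K (riemannRochSpace E₁) = l := by
      have h1 := finrank_rr_large E₁ (by
        rw [hE₁d, hdegD₀]
        exact_mod_cast hd)
      rw [hE₁d, hdegD₀] at h1
      omega
    have h2 := card_equiv_class g hQ hQK hg E₁ hE₁g
    rw [hrk] at h2
    rw [← h2]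
    congr 1
    have hE₁z : E₁ - D₀ ∈ Divisor.degZero (K := K) (F := F) := by
      rw [Divisor.mem_degZero, map_sub, hE₁d, sub_self]
    have hDE : Pic0.mk D = Pic0.mk ⟨E₁ - D₀, hE₁z⟩ := by
      rw [← sub_eq_zero, ← PIC.mk_sub, mk_eq_zero_iff', AddSubgroup.coe_sub]
      exact hE₁
    have key : ∀ x : X, Φ x = ⟨Pic0.mk D, hc⟩ ↔ ∃ f : F, f ≠ 0 ∧ x.1 = E₁ + divOf f := by
      intro x
      rw [Subtype.ext_iff]
      show Pic0.mk _ = Pic0.mk D ↔ _
      rw [hDE, eq_iff_mk]
      refine exists_congr fun f => and_congr_right fun _ => ?_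
      show x.1 - D₀ = E₁ - D₀ + divOf f ↔ _
      constructor
      · intro h
        have := congrArg (· + D₀) h
        simp only [sub_add_cancel] at this
        rw [this]
        abel
      · intro h
        rw [h]
        abel
    refine Nat.card_congr ?_
    exact
      { toFun := fun x => ⟨x.1.1, x.1.2.1, x.1.2.2.2, (key _).mp x.2⟩
        invFun := fun E => ⟨⟨E.1, E.2.1, by
          obtain ⟨f, hf, h⟩ := E.2.2.2
          rw [h, map_add, degree_divOf, add_zero, hE₁d, hdegD₀], E.2.2.1⟩,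
          (key _).mpr E.2.2.2⟩
        left_inv := fun x => rfl
        right_inv := fun x => rfl }
  obtain ⟨n, hn⟩ : ∃ n, n * (Q - 1) = Q ^ l - 1 := ⟨_, hfib ⟨Pic0.mk 0, by
    rw [pic0_smul_mk, map_zero]⟩⟩
  have hn0 : n ≠ 0 := by
    rintro rfl
    rw [zero_mul] at hn
    omega
  have hfib' : ∀ c, Nat.card {x // Φ x = c} = n := fun c =>
    Nat.eq_of_mul_eq_mul_right (by omega) ((hfib c).trans hn.symm)
  have h1 := card_of_fibers Φ hn0 hfib'
  show Nat.card X * (Q - 1) = Nat.card {c : Pic0 K F // g • c = c} * (Q ^ l - 1)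
  rw [h1, mul_assoc, hn]

end Fermat.Agent.Zeta
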