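import Fermat.Agent.PIC.Finite
import Fermat.Agent.FunField.Duality
import Mathlib.FieldTheory.Separable
import Mathlib.LinearAlgebra.Basis.VectorSpace

/-!
# Counting fixed vectors of Frobenius-semilinear maps
-/

set_option autoImplicit false

noncomputable section

open Module

namespace Fermat.Agent.Zeta

section Card

open Polynomial

variable {K : Type*} [Field K] [IsAlgClosed K] {Q : ℕ}

/-- the elements with `a ^ Q = a` -/
theorem card_pow_eq (hQ : 2 ≤ Q) (hQK : (Q : K) = 0) : Nat.card {a : K // a ^ Q = a} = Q := by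
  classical
  let R : K[X] := X ^ Q - X
  have hmon : R.Monic := monic_X_pow_sub (by rw [degree_X]; exact_mod_cast hQ)
  have hR0 : R ≠ 0 := hmon.ne_zero
  have hdeg : R.natDegree = Q := by
    have : R.degree = Q := by
      rw [degree_sub_eq_left_of_degree_lt]
      · exact degree_X_pow Q
      · rw [degree_X, degree_X_pow]
        exact_mod_cast hQ
    exact natDegree_eq_of_degree_eq_some this
  have hsep : R.Separable := by
    have h1 : derivative R = -1 := by
      rw [derivative_sub, derivative_X_pow, derivative_X, hQK, C_0, zero_mul, zero_sub]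
    rw [Separable, h1]
    exact ⟨0, -1, by ring⟩
  have hcard : R.roots.toFinset.card = Q := by
    rw [Multiset.toFinset_card_of_nodup (nodup_roots hsep),
      ← (IsAlgClosed.splits R).natDegree_eq_card_roots, hdeg]
  have hset : ∀ a : K, a ∈ R.roots.toFinset ↔ a ^ Q = a := by
    intro a
    rw [Multiset.mem_toFinset, mem_roots hR0, IsRoot.def, eval_sub, eval_pow, eval_X, sub_eq_zero]
  refine (Nat.card_congr (Equiv.subtypeEquivRight fun a => (hset a).symm)).trans ?_
  exact (Nat.card_eq_finsetCard _).trans hcard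

theorem card_pow_eq_ne (hQ : 2 ≤ Q) (hQK : (Q : K) = 0) :
    Nat.card {a : K // a ^ Q = a ∧ a ≠ 0} = Q - 1 := by
  classical
  have h1 := card_pow_eq (K := K) hQ hQK
  have hfin : Finite {a : K // a ^ Q = a} := Nat.finite_of_card_ne_zero (by omega)
  have := Fintype.ofFinite {a : K // a ^ Q = a}
  have e : {a : K // a ^ Q = a ∧ a ≠ 0} ≃
      {x : {a : K // a ^ Q = a} // x ≠ ⟨0, zero_pow (by omega)⟩} :=
    { toFun := fun x => ⟨⟨x.1, x.2.1⟩, fun h => x.2.2 (congrArg Subtype.val h)⟩
      invFun := fun x => ⟨x.1.1, x.1.2, fun h => x.2 (Subtype.ext h)⟩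
      left_inv := fun x => rfl
      right_inv := fun x => rfl }
  rw [Nat.card_congr e, Nat.card_eq_fintype_card]
  rw [Fintype.card_subtype_compl, Fintype.card_subtype_eq, ← Nat.card_eq_fintype_card, h1]

theorem exists_artinSchreier {q : ℕ} (hq : 2 ≤ q) (a : K) : ∃ b : K, b ^ q - b = a := by
  have hdeg : (X ^ q - X - C a : K[X]).degree ≠ 0 := by
    have h1 : (X + C a : K[X]).degree < (X ^ q : K[X]).degree := by
      rw [degree_X_add_C, degree_X_pow]
      exact_mod_cast hq
    rw [sub_sub, degree_sub_eq_left_of_degree_lt h1, degree_X_pow]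
    exact_mod_cast (by omega : q ≠ 0)
  obtain ⟨b, hb⟩ := IsAlgClosed.exists_root _ hdeg
  refine ⟨b, ?_⟩
  rwa [IsRoot.def, eval_sub, eval_sub, eval_pow, eval_X, eval_C, sub_eq_zero] at hb

end Card

section Lang

variable {K V : Type*} [Field K] [IsAlgClosed K] [AddCommGroup V] [Module K V]
  [FiniteDimensional K V]

/-- the fixed vectors span -/
theorem span_fixed {q : ℕ} (hq : 2 ≤ q) (φ : V →+ V) (hφ : ∀ (a : K) (v : V),
    φ (a • v) = a ^ q • φ v) (hinj : Function.Injective φ) :
    Submodule.span K {v : V | φ v = v} = ⊤ := by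
  classical
  set S : Set V := {v : V | φ v = v} with hS
  set W := Submodule.span K S with hW
  have hφW : ∀ w ∈ W, φ w ∈ W := by
    intro w hw
    refine Submodule.closure_induction (p := fun w _ => φ w ∈ W) ?_ ?_ ?_ hw
    · show φ 0 ∈ W
      rw [map_zero]; exact W.zero_mem
    · intro x y _ _ ihx ihy
      show φ (x + y) ∈ W
      rw [map_add]; exact W.add_mem ihx ihy
    · intro a x hx
      show φ (a • x) ∈ W
      rw [hφ, show φ x = x from hx]
      exact W.smul_mem _ (Submodule.subset_span hx)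
  have hsurj : ∀ w ∈ W, ∃ b ∈ W, φ b = w := by
    intro w hw
    refine Submodule.closure_induction (p := fun w _ => ∃ b ∈ W, φ b = w) ?_ ?_ ?_ hw
    · exact ⟨0, W.zero_mem, map_zero φ⟩
    · rintro x y _ _ ⟨b, hb, rfl⟩ ⟨c, hc, rfl⟩
      exact ⟨b + c, W.add_mem hb hc, map_add φ b c⟩
    · intro a x hx
      obtain ⟨b, hb⟩ := IsAlgClosed.exists_pow_nat_eq a (by omega : 0 < q)
      refine ⟨b • x, W.smul_mem _ (Submodule.subset_span hx), ?_⟩
      rw [hφ, hb, show φ x = x from hx]
  have hsub : ∀ w ∈ W, ∃ b ∈ W, φ b - b = w := by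
    intro w hw
    refine Submodule.closure_induction (p := fun w _ => ∃ b ∈ W, φ b - b = w) ?_ ?_ ?_ hw
    · exact ⟨0, W.zero_mem, by rw [map_zero, sub_zero]⟩
    · rintro x y _ _ ⟨b, hb, rfl⟩ ⟨c, hc, rfl⟩
      exact ⟨b + c, W.add_mem hb hc, by rw [map_add]; abel⟩
    · intro a x hx
      obtain ⟨b, hb⟩ := exists_artinSchreier hq a
      refine ⟨b • x, W.smul_mem _ (Submodule.subset_span hx), ?_⟩
      rw [hφ, show φ x = x from hx, ← sub_smul, hb]
  by_contra hne
  have hnt : Nontrivial (V ⧸ W) := Submodule.Quotient.nontrivial_iff.mpr hne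
  let φ' : (V ⧸ W) →+ (V ⧸ W) :=
    QuotientAddGroup.map W.toAddSubgroup W.toAddSubgroup φ hφW
  have hφ'mk : ∀ v, φ' (Submodule.Quotient.mk v) = Submodule.Quotient.mk (φ v) := fun v => rfl
  have hφ' : ∀ (a : K) (v : V ⧸ W), φ' (a • v) = a ^ q • φ' v := by
    intro a v
    obtain ⟨v, rfl⟩ := Submodule.Quotient.mk_surjective W v
    rw [← Submodule.Quotient.mk_smul, hφ'mk, hφ'mk, hφ, Submodule.Quotient.mk_smul]
  have hinj' : Function.Injective φ' := by
    rw [injective_iff_map_eq_zero]
    intro v hv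
    obtain ⟨v, rfl⟩ := Submodule.Quotient.mk_surjective W v
    rw [hφ'mk, Submodule.Quotient.mk_eq_zero] at hv
    obtain ⟨b, hb, hbv⟩ := hsurj _ hv
    rw [Submodule.Quotient.mk_eq_zero, ← hinj hbv]
    exact hb
  obtain ⟨v, hv0, hv⟩ := PIC.exists_fixed hq φ' hφ' hinj'
  obtain ⟨v, rfl⟩ := Submodule.Quotient.mk_surjective W v
  rw [hφ'mk, Submodule.Quotient.eq] at hv
  obtain ⟨b, hb, hbv⟩ := hsub _ hv
  apply hv0
  rw [Submodule.Quotient.mk_eq_zero]
  have h1 : v - b ∈ W := by
    apply Submodule.subset_span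
    show φ (v - b) = v - b
    rw [map_sub, ← sub_eq_zero]
    have : φ v - φ b - (v - b) = (φ v - v) - (φ b - b) := by abel
    rw [this, hbv, sub_self]
  have h2 := W.add_mem h1 hb
  rwa [sub_add_cancel] at h2

/-- **Lang**: the number of fixed vectors is `q ^ dim`. -/
theorem card_fixed {q : ℕ} (hq : 2 ≤ q) (hqK : (q : K) = 0) (φ : V →+ V)
    (hφ : ∀ (a : K) (v : V), φ (a • v) = a ^ q • φ v) (hinj : Function.Injective φ) :
    Nat.card {v : V // φ v = v} = q ^ finrank K V := by
  classical
  obtain ⟨b, hbS, hbspan, hbli⟩ := exists_linearIndependent K {v : V | φ v = v}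
  rw [span_fixed hq φ hφ hinj] at hbspan
  let B : Basis b K V := Basis.mk hbli (by rw [Subtype.range_coe_subtype]; exact hbspan.ge)
  have hB : ∀ i, B i = i := fun i => Basis.mk_apply _ _ i
  have hfin : Finite b := Module.Finite.finite_basis B
  have := Fintype.ofFinite b
  have hrepr : ∀ v i, B.equivFun (φ v) i = (B.equivFun v i) ^ q := by
    intro v i
    conv_lhs => rw [← B.sum_equivFun v]
    rw [map_sum]
    have : ∑ x, φ (B.equivFun v x • B x) = ∑ x, (B.equivFun v x ^ q) • B x := by
      refine Finset.sum_congr rfl fun x _ => ?_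
      rw [hφ, hB, show φ (x : V) = x from hbS x.2]
    rw [this, ← B.equivFun_symm_apply (fun x => B.equivFun v x ^ q),
      LinearEquiv.apply_symm_apply]
  have e : {v : V // φ v = v} ≃ (b → {a : K // a ^ q = a}) :=
    (B.equivFun.toEquiv.subtypeEquiv (fun v => by
      show φ v = v ↔ ∀ i, B.equivFun v i ^ q = B.equivFun v i
      constructor
      · intro h i
        rw [← hrepr, h]
      · intro h
        apply B.equivFun.injective
        funext i
        rw [hrepr, h])).trans Equiv.subtypePiEquivPi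
  rw [Nat.card_congr e, Nat.card_fun, card_pow_eq hq hqK, Module.finrank_eq_nat_card_basis B]

end Lang

end Fermat.Agent.Zeta
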