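import Fermat.Agent.Zeta.Orbit

/-!
# The identities defining the zeta function of a curve over a finite field
-/

set_option autoImplicit false

noncomputable section

open AlgebraicCurve Module

namespace Fermat.Agent.Zeta

open Fermat.Agent.FunField Fermat.Agent.FunField.PlaceLemmas Fermat.Agent.TorsInj
  Fermat.Agent.HeckeRed SemilinearAut

variable {K F : Type*} [Field K] [Field F] [Algebra K F] [IsAlgClosed K] [IsFF K F]

theorem dg_eq_degree (E : Divisor K F) : dg E = Divisor.degree E := by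
  have h : (dg : (Place K F →₀ ℤ) →+ ℤ) = Divisor.degree := by
    refine Finsupp.addHom_ext fun P n => ?_
    rw [dg_single, Divisor.degree_single, Fermat.Agent.Deuring.deg_eq_one P]
    simp
  rw [h]

omit [IsAlgClosed K] [IsFF K F] in
theorem smul_eq_iff (g : SemilinearAut K F) (E : Divisor K F) :
    g • E = E ↔ ∀ P, E (g • P) = E P := by
  constructor
  · intro h P
    conv_lhs => rw [← h]
    rw [divisor_smul_apply_smul]
  · intro h
    ext P
    rw [divisor_smul_apply, ← h, smul_inv_smul]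

omit [IsAlgClosed K] [IsFF K F] in
theorem iterate_smul (g : SemilinearAut K F) (s : ℕ) (P : Place K F) :
    (fun P : Place K F => g • P)^[s] P = g ^ s • P := by
  induction s with
  | zero => rw [pow_zero, one_smul]; rfl
  | succ s ih => rw [Function.iterate_succ_apply', ih, pow_succ', mul_smul]

/-- stable effective divisors -/
def seEquiv (g : SemilinearAut K F) (d : ℕ) : SE (fun P : Place K F => g • P) d ≃
    {E : Divisor K F // 0 ≤ E ∧ Divisor.degree E = (d : ℤ) ∧ g • E = E} :=
  Equiv.subtypeEquivRight fun E => by rw [dg_eq_degree, smul_eq_iff]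

section Powers

variable (g : SemilinearAut K F) {q : ℕ} (hq : 2 ≤ q) (hqK : (q : K) = 0)
  (hg : ∀ a : K, g • algebraMap K F a = algebraMap K F (a ^ q))
  {t : F} (ht : Transcendental K t) (hgt : g • t = t) {P₀ : Place K F} (hP₀ : g • P₀ = P₀)

omit [IsAlgClosed K] [IsFF K F] in
include hg in
theorem pow_smul_algebraMap (m : ℕ) (a : K) :
    g ^ m • algebraMap K F a = algebraMap K F (a ^ (q ^ m)) := by
  induction m with
  | zero => simp
  | succ j ih => rw [pow_succ', mul_smul, ih, hg, ← pow_mul, ← pow_succ]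

omit [IsAlgClosed K] [IsFF K F] in
include hgt in
theorem pow_smul_fixed (m : ℕ) : g ^ m • t = t := by
  induction m with
  | zero => simp
  | succ j ih => rw [pow_succ', mul_smul, ih, hgt]

omit [IsAlgClosed K] [IsFF K F] in
include hP₀ in
theorem pow_smul_place (m : ℕ) : g ^ m • P₀ = P₀ := by
  induction m with
  | zero => simp
  | succ j ih => rw [pow_succ', mul_smul, ih, hP₀]

include hq in
theorem two_le_pow {m : ℕ} (hm : 1 ≤ m) : 2 ≤ q ^ m :=
  hq.trans (Nat.le_self_pow (by omega) q)

omit [IsAlgClosed K] in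
include hqK in
theorem cast_pow_zero {m : ℕ} (hm : 1 ≤ m) : ((q ^ m : ℕ) : K) = 0 := by
  rw [Nat.cast_pow, hqK, zero_pow (by omega)]

include hq hg ht hgt in
theorem finite_places {m : ℕ} (hm : 1 ≤ m) : Finite {P : Place K F // g ^ m • P = P} :=
  (PIC.finite_fixed_places (g ^ m) (two_le_pow hq hm) (pow_smul_algebraMap g hg m) ht
    (pow_smul_fixed g hgt m)).to_subtype

include hq hg ht hgt in
theorem finite_classes {m : ℕ} (hm : 1 ≤ m) : Finite {c : Pic0 K F // g ^ m • c = c} :=
  (PIC.finite_fixed_classes (g ^ m) (two_le_pow hq hm) (pow_smul_algebraMap g hg m) ht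
    (pow_smul_fixed g hgt m)).to_subtype

include hq hg ht hgt in
theorem finite_eff {m : ℕ} (hm : 1 ≤ m) (d : ℕ) :
    Finite {E : Divisor K F // 0 ≤ E ∧ Divisor.degree E = (d : ℤ) ∧ g ^ m • E = E} :=
  (PIC.finite_stable_divisors (g ^ m) (two_le_pow hq hm) (pow_smul_algebraMap g hg m) ht
    (pow_smul_fixed g hgt m) d).to_subtype

include hq hqK hg ht hgt hP₀ in
/-- **(Z3)** -/
theorem Z3 {m : ℕ} (hm : 1 ≤ m) (d : ℕ) (hd : 2 * genusFF K F ≤ d + 1) :
    effCard (g ^ m) d * (q ^ m - 1) =
      clsCard (g ^ m) * (q ^ (m * (d + 1 - genusFF K F)) - 1) := by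
  rw [pow_mul]
  exact effCard_mul (g ^ m) (two_le_pow hq hm) (cast_pow_zero hqK hm) (pow_smul_algebraMap g hg m)
    ht (pow_smul_fixed g hgt m) (pow_smul_place g hP₀ m) d hd

include hq hg ht hgt in
/-- **(Z4)** -/
theorem Z4 {m : ℕ} (hm : 1 ≤ m) (d : ℕ) :
    d * effCard (g ^ m) d =
      ∑ s ∈ Finset.Icc 1 d, placeCard (g ^ (m * s)) * effCard (g ^ m) (d - s) := by
  have h1 := orbit_count (σ := fun P : Place K F => g ^ m • P) (MulAction.injective (g ^ m))
    (fun d => by
      have := finite_eff g hq hg ht hgt hm d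
      exact Finite.of_equiv _ (seEquiv (g ^ m) d).symm)
    (fun s hs => by
      have := finite_places g hq hg ht hgt (m := m * s) (Nat.mul_pos hm hs)
      simp only [iterate_smul, ← pow_mul]
      exact this) d
  have h2 : ∀ d, Nat.card (SE (fun P : Place K F => g ^ m • P) d) = effCard (g ^ m) d :=
    fun d => Nat.card_congr (seEquiv (g ^ m) d)
  simp only [h2, iterate_smul, ← pow_mul] at h1
  exact h1

/-- there is exactly one effective divisor of degree `0` -/
theorem effCard_zero (g : SemilinearAut K F) : effCard g 0 = 1 := by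
  rw [effCard, Nat.card_eq_one_iff_unique]
  refine ⟨⟨fun E E' => Subtype.ext ?_⟩, ⟨⟨0, le_rfl, by simp, smul_zero g⟩⟩⟩
  rw [eq_zero_of_degree_zero E.2.1 (by rw [E.2.2.1]; rfl),
    eq_zero_of_degree_zero E'.2.1 (by rw [E'.2.2.1]; rfl)]

include hq hg ht hgt in
theorem clsCard_pos {m : ℕ} (hm : 1 ≤ m) : 0 < clsCard (g ^ m) := by
  have := finite_classes g hq hg ht hgt hm
  have : Nonempty {c : Pic0 K F // g ^ m • c = c} := ⟨⟨Pic0.mk 0, by rw [pic0_smul_mk, map_zero]⟩⟩
  exact Nat.card_pos

end Powers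

end Fermat.Agent.Zeta
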