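import Fermat.Agent.Zeta.Count
import Mathlib.Dynamics.PeriodicPts.Defs

/-!
# Counting stable effective divisors by orbits
-/

set_option autoImplicit false

noncomputable section

open Function

namespace Fermat.Agent.Zeta

section Comb

variable {α : Type*} (σ : α → α)

/-- total degree -/
def dg : (α →₀ ℤ) →+ ℤ := Finsupp.liftAddHom fun _ => AddMonoidHom.id ℤ

theorem dg_single (x : α) (n : ℤ) : dg (Finsupp.single x n) = n := by
  simp [dg]

theorem dg_eq_sum (E : α →₀ ℤ) : dg E = ∑ x ∈ E.support, E x := by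
  simp [dg, Finsupp.sum]

theorem dg_nonneg {E : α →₀ ℤ} (hE : 0 ≤ E) : 0 ≤ dg E := by
  rw [dg_eq_sum]
  exact Finset.sum_nonneg fun x _ => hE x

/-- the sum of the first `s` points of the orbit -/
def Zs (s : ℕ) (x : α) : α →₀ ℤ := ∑ i ∈ Finset.range s, Finsupp.single (σ^[i] x) 1

theorem Zs_nonneg (s : ℕ) (x : α) : 0 ≤ Zs σ s x := by
  refine Finset.sum_nonneg fun i _ => ?_
  rw [Finsupp.single_nonneg]
  exact zero_le_one

theorem dg_Zs (s : ℕ) (x : α) : dg (Zs σ s x) = s := by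
  rw [Zs, map_sum, Finset.sum_congr rfl fun i _ => dg_single _ _, Finset.sum_const,
    Finset.card_range, nsmul_eq_mul, mul_one]

theorem Zs_add (s t : ℕ) (x : α) : Zs σ (s + t) x = Zs σ s x + Zs σ t (σ^[s] x) := by
  rw [Zs, Zs, Zs, Finset.sum_range_add]
  congr 1
  refine Finset.sum_congr rfl fun i _ => ?_
  rw [← Function.iterate_add_apply, add_comm]

theorem Zs_mul {o : ℕ} {x : α} (ho : σ^[o] x = x) (k : ℕ) : Zs σ (o * k) x = k • Zs σ o x := by
  induction k with
  | zero => simp [Zs]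
  | succ k ih =>
    have h : σ^[o * k] x = x := Function.IsPeriodicPt.mul_const (show IsPeriodicPt σ o x from ho) k
    rw [Nat.mul_succ, Zs_add, ih, h, succ_nsmul]

theorem Zs_invariant (hσ : Injective σ) {s : ℕ} {x : α} (hs : σ^[s] x = x) (y : α) :
    Zs σ s x (σ y) = Zs σ s x y := by
  have h1 : Finsupp.mapDomain σ (Zs σ s x) = Zs σ s x := by
    have h2 : Finsupp.mapDomain σ (Zs σ s x) = Zs σ s (σ x) := by
      rw [Zs, Zs, Finsupp.mapDomain_finsetSum]
      refine Finset.sum_congr rfl fun i _ => ?_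
      rw [Finsupp.mapDomain_single, ← Function.iterate_succ_apply' σ, Function.iterate_succ_apply]
    have h3 := Zs_add σ 1 s x
    rw [Function.iterate_one, add_comm 1 s, Zs_add, hs] at h3
    rw [h2]
    have h4 := add_right_cancel (h3.trans (add_comm _ _))
    exact h4.symm
  have h5 := Finsupp.mapDomain_apply hσ (Zs σ s x) y
  rw [h1] at h5
  exact h5

theorem Zs_apply (s : ℕ) (x y : α) [DecidableEq α] :
    Zs σ s x y = ((Finset.range s).filter fun i => σ^[i] x = y).card := by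
  rw [Zs, Finsupp.finsetSum_apply, Finset.card_filter]
  push_cast
  refine Finset.sum_congr rfl fun i _ => ?_
  rw [Finsupp.single_apply]

theorem Zs_period_le (x y : α) : Zs σ (minimalPeriod σ x) x y ≤ 1 := by
  classical
  rw [Zs_apply]
  have : ((Finset.range (minimalPeriod σ x)).filter fun i => σ^[i] x = y).card ≤ 1 := by
    rw [Finset.card_le_one]
    intro a ha b hb
    rw [Finset.mem_filter, Finset.mem_range] at ha hb
    exact (iterate_injOn_Iio_minimalPeriod (f := σ) (x := x)) ha.1 hb.1 (ha.2.trans hb.2.symm)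
  exact_mod_cast this

theorem Zs_period_self {x : α} (hx : 0 < minimalPeriod σ x) :
    Zs σ (minimalPeriod σ x) x x = 1 := by
  classical
  refine le_antisymm (Zs_period_le σ x x) ?_
  rw [Zs_apply]
  have : 1 ≤ ((Finset.range (minimalPeriod σ x)).filter fun i => σ^[i] x = x).card := by
    rw [Nat.one_le_iff_ne_zero, Finset.card_ne_zero]
    exact ⟨0, by rw [Finset.mem_filter, Finset.mem_range]; exact ⟨hx, rfl⟩⟩
  exact_mod_cast this

theorem exists_iterate_of_Zs {s : ℕ} {x y : α} (h : Zs σ s x y ≠ 0) : ∃ i, σ^[i] x = y := by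
  classical
  rw [Zs_apply] at h
  have h1 : ((Finset.range s).filter fun i => σ^[i] x = y).card ≠ 0 := by exact_mod_cast h
  rw [Finset.card_ne_zero] at h1
  obtain ⟨i, hi⟩ := h1
  exact ⟨i, (Finset.mem_filter.mp hi).2⟩

theorem iterate_inv {E : α →₀ ℤ} (hE : ∀ x, E (σ x) = E x) (i : ℕ) (x : α) :
    E (σ^[i] x) = E x := by
  induction i with
  | zero => rfl
  | succ i ih => rw [Function.iterate_succ_apply', hE, ih]

theorem minimalPeriod_pos (hσ : Injective σ) {E : α →₀ ℤ} (hE : ∀ x, E (σ x) = E x) {x : α}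
    (hx : E x ≠ 0) : 0 < minimalPeriod σ x := by
  classical
  obtain ⟨i, hi, j, hj, hij, he⟩ : ∃ i ∈ Finset.range (E.support.card + 1),
      ∃ j ∈ Finset.range (E.support.card + 1), i ≠ j ∧ σ^[i] x = σ^[j] x := by
    apply Finset.exists_ne_map_eq_of_card_lt_of_maps_to (t := E.support)
    · rw [Finset.card_range]
      omega
    · intro j _
      rw [Finset.mem_coe, Finsupp.mem_support_iff, iterate_inv σ hE]
      exact hx
  wlog hlt : i < j generalizing i j
  · exact this j hj i hi (Ne.symm hij) he.symm (by omega)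
  apply minimalPeriod_pos_of_mem_periodicPts
  refine ⟨j - i, by omega, ?_⟩
  show σ^[j - i] x = x
  apply hσ.iterate i
  rw [← Function.iterate_add_apply, he]
  congr 1
  omega

theorem mul_Zs_le_iff {E : α →₀ ℤ} (hE0 : 0 ≤ E) (hE : ∀ x, E (σ x) = E x) {x : α}
    (hx : 0 < minimalPeriod σ x) (k : ℕ) :
    Zs σ (minimalPeriod σ x * k) x ≤ E ↔ (k : ℤ) ≤ E x := by
  rw [Zs_mul σ (isPeriodicPt_minimalPeriod σ x) k]
  constructor
  · intro h
    have h1 := h x
    rw [Finsupp.smul_apply, Zs_period_self σ hx, nsmul_eq_mul, mul_one] at h1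
    exact h1
  · intro h y
    rw [Finsupp.smul_apply, nsmul_eq_mul]
    have h1 := Zs_period_le σ x y
    by_cases h0 : Zs σ (minimalPeriod σ x) x y = 0
    · rw [h0, mul_zero]
      exact hE0 y
    · obtain ⟨i, rfl⟩ := exists_iterate_of_Zs σ h0
      rw [iterate_inv σ hE]
      have h2 : 0 ≤ Zs σ (minimalPeriod σ x) x (σ^[i] x) := Zs_nonneg σ _ _ _
      nlinarith [Int.natCast_nonneg k]

/-- stable effective divisors of degree `d` -/
def SE (d : ℕ) : Type _ := {E : α →₀ ℤ // 0 ≤ E ∧ dg E = (d : ℤ) ∧ ∀ x, E (σ x) = E x}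

/-- triples -/
def TT (d : ℕ) : Type _ := {x : ℕ × α × (α →₀ ℤ) // (1 ≤ x.1 ∧ x.1 ≤ d) ∧ σ^[x.1] x.2.1 = x.2.1 ∧
  0 ≤ x.2.2 ∧ dg x.2.2 = ((d - x.1 : ℕ) : ℤ) ∧ ∀ y, x.2.2 (σ y) = x.2.2 y}

variable {σ} (hσ : Injective σ)

include hσ in
/-- adding an orbit sum -/
def psiT (d : ℕ) (x : TT σ d) : SE σ d :=
  ⟨x.1.2.2 + Zs σ x.1.1 x.1.2.1, add_nonneg x.2.2.2.1 (Zs_nonneg σ _ _), by
    rw [map_add, x.2.2.2.2.1, dg_Zs]
    have := x.2.1.2
    push_cast [this]
    ring, fun y => by
    rw [Finsupp.add_apply, Finsupp.add_apply, x.2.2.2.2.2, Zs_invariant σ hσ x.2.2.1]⟩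

include hσ in
/-- the fibres have `d` elements -/
theorem card_fiber (d : ℕ) (E : SE σ d) :
    Nat.card {x : TT σ d // psiT hσ d x = E} = d := by
  classical
  obtain ⟨E, hE0, hEd, hE⟩ := E
  -- the parametrisation
  have hE1 : ∀ {P : α} {k : ℕ}, k < (E P).toNat → E P ≠ 0 := by
    intro P k hk h
    rw [h] at hk
    simp at hk
  let Θ : (Σ P : E.support, Fin (E P).toNat) → {x : TT σ d // psiT hσ d x = ⟨E, hE0, hEd, hE⟩} :=
    fun z => by
      have hP0 : E z.1 ≠ 0 := Finsupp.mem_support_iff.mp z.1.2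
      have hper : 0 < minimalPeriod σ (z.1 : α) := minimalPeriod_pos σ hσ hE hP0
      have hle : Zs σ (minimalPeriod σ (z.1 : α) * (z.2 + 1)) z.1 ≤ E := by
        rw [mul_Zs_le_iff σ hE0 hE hper]
        have h1 := z.2.2
        have h2 := hE0 z.1
        rw [Finsupp.zero_apply] at h2
        omega
      have hsx : σ^[minimalPeriod σ (z.1 : α) * (z.2 + 1)] z.1 = z.1 :=
        Function.IsPeriodicPt.mul_const (isPeriodicPt_minimalPeriod σ _) _
      have hsd : minimalPeriod σ (z.1 : α) * (z.2 + 1) ≤ d := by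
        have h1 := dg_nonneg (sub_nonneg.mpr hle)
        rw [map_sub, dg_Zs, hEd] at h1
        exact_mod_cast sub_nonneg.mp h1
      refine ⟨⟨(minimalPeriod σ (z.1 : α) * (z.2 + 1), z.1,
        E - Zs σ (minimalPeriod σ (z.1 : α) * (z.2 + 1)) z.1),
        ⟨Nat.mul_pos hper (Nat.succ_pos _), hsd⟩, hsx, sub_nonneg.mpr hle, ?_, ?_⟩, ?_⟩
      · show dg (E - Zs σ (minimalPeriod σ (z.1 : α) * (z.2 + 1)) z.1) = _
        rw [map_sub, dg_Zs, hEd, Nat.cast_sub hsd]
      · intro y
        show (E - Zs σ (minimalPeriod σ (z.1 : α) * (z.2 + 1)) z.1) (σ y) = (E - Zs σ _ _) y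
        rw [Finsupp.sub_apply, Finsupp.sub_apply, hE, Zs_invariant σ hσ hsx]
      · apply Subtype.ext
        show E - Zs σ _ _ + Zs σ _ _ = E
        rw [sub_add_cancel]
  have hΘ1 : ∀ z, (Θ z).1.1.1 = minimalPeriod σ (z.1 : α) * (z.2 + 1) := fun z => rfl
  have hΘ2 : ∀ z, (Θ z).1.1.2.1 = z.1 := fun z => rfl
  have hbij : Bijective Θ := by
    constructor
    · rintro ⟨P, k⟩ ⟨P', k'⟩ h
      have h1 : P = P' := Subtype.ext (by rw [← hΘ2 ⟨P, k⟩, h])
      subst h1
      have h2 : minimalPeriod σ (P : α) * (k + 1) = minimalPeriod σ (P : α) * (k' + 1) := by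
        rw [← hΘ1 ⟨P, k⟩, h]
      have hper : 0 < minimalPeriod σ (P : α) :=
        minimalPeriod_pos σ hσ hE (Finsupp.mem_support_iff.mp P.2)
      have h3 := Nat.eq_of_mul_eq_mul_left hper h2
      have h4 : k = k' := Fin.ext (by omega)
      rw [h4]
    · rintro ⟨⟨⟨s, P, E'⟩, ⟨hs1, hsd⟩, hsP, hE'0, hE'd, hE'⟩, hx⟩
      have hx' : E' + Zs σ s P = E := congrArg Subtype.val hx
      have hs1' : 1 ≤ s := hs1
      have hsP' : σ^[s] P = P := hsP
      have hper : 0 < minimalPeriod σ P := IsPeriodicPt.minimalPeriod_pos (by omega) hsP'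
      obtain ⟨k', hk'⟩ := IsPeriodicPt.minimalPeriod_dvd hsP'
      obtain ⟨k, rfl⟩ : ∃ k, k' = k + 1 := ⟨k' - 1, by
        have : k' ≠ 0 := by
          rintro rfl
          rw [mul_zero] at hk'
          omega
        omega⟩
      subst hk'
      have hle : Zs σ (minimalPeriod σ P * (k + 1)) P ≤ E := by
        rw [← hx']
        exact le_add_of_nonneg_left hE'0
      rw [mul_Zs_le_iff σ hE0 hE hper] at hle
      have hPk : k < (E P).toNat := by
        push_cast at hle
        omega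
      refine ⟨⟨⟨P, Finsupp.mem_support_iff.mpr (hE1 hPk)⟩, ⟨k, hPk⟩⟩, ?_⟩
      apply Subtype.ext
      apply Subtype.ext
      show (minimalPeriod σ P * (k + 1), P, E - Zs σ (minimalPeriod σ P * (k + 1)) P) =
        (minimalPeriod σ P * (k + 1), P, E')
      rw [← hx', add_sub_cancel_right]
  rw [← Nat.card_congr (Equiv.ofBijective Θ hbij), Nat.card_sigma]
  have h1 : ∀ P : E.support, Nat.card (Fin (E P).toNat) = (E P).toNat := fun P => by simp
  rw [Finset.sum_congr rfl fun P _ => h1 P]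
  have h2 : (∑ P : E.support, ((E P).toNat : ℤ)) = d := by
    rw [← hEd, dg_eq_sum, ← Finset.sum_coe_sort E.support (fun P => E P)]
    exact Finset.sum_congr rfl fun P _ => Int.toNat_of_nonneg (hE0 P)
  exact_mod_cast h2

include hσ in
/-- **orbit counting** -/
theorem orbit_count (hfE : ∀ d, Finite (SE σ d)) (hfP : ∀ s, 1 ≤ s → Finite {x : α // σ^[s] x = x})
    (d : ℕ) : d * Nat.card (SE σ d) =
      ∑ s ∈ Finset.Icc 1 d, Nat.card {x : α // σ^[s] x = x} * Nat.card (SE σ (d - s)) := by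
  classical
  rcases Nat.eq_zero_or_pos d with rfl | hd
  · simp
  have hf := hfE d
  have h1 := card_of_fibers (psiT hσ d) hd.ne' (card_fiber hσ d)
  rw [mul_comm, ← h1]
  -- the other fibration
  let p : TT σ d → Finset.Icc 1 d := fun x => ⟨x.1.1, Finset.mem_Icc.mpr x.2.1⟩
  have e : ∀ s : Finset.Icc 1 d, {x : TT σ d // p x = s} ≃
      {x : α // σ^[(s : ℕ)] x = x} × SE σ (d - s) := fun s =>
    { toFun := fun x => by
        have hs : x.1.1.1 = s := congrArg Subtype.val x.2
        exact (⟨x.1.1.2.1, by rw [← hs]; exact x.1.2.2.1⟩,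
          ⟨x.1.1.2.2, x.1.2.2.2.1, by rw [← hs]; exact x.1.2.2.2.2.1, x.1.2.2.2.2.2⟩)
      invFun := fun y => ⟨⟨((s : ℕ), y.1.1, y.2.1), Finset.mem_Icc.mp s.2, y.1.2, y.2.2.1,
        y.2.2.2.1, y.2.2.2.2⟩, rfl⟩
      left_inv := fun x => by
        have hs : x.1.1.1 = s := congrArg Subtype.val x.2
        apply Subtype.ext
        apply Subtype.ext
        show ((s : ℕ), x.1.1.2.1, x.1.1.2.2) = x.1.1
        rw [← hs]
      right_inv := fun y => rfl }
  have hfin : ∀ s : Finset.Icc 1 d, Finite {x : TT σ d // p x = s} := fun s => by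
    have := hfE (d - s)
    have := hfP s (Finset.mem_Icc.mp s.2).1
    exact Finite.of_equiv _ (e s).symm
  rw [← Nat.card_congr (Equiv.sigmaFiberEquiv p), Nat.card_sigma,
    ← Finset.sum_coe_sort (Finset.Icc 1 d)
      (fun s => Nat.card {x : α // σ^[s] x = x} * Nat.card (SE σ (d - s)))]
  refine Finset.sum_congr rfl fun s _ => ?_
  rw [Nat.card_congr (e s), Nat.card_prod]

end Comb

end Fermat.Agent.Zeta
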